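import Fermat.Agent.S05.Formulas

set_option autoImplicit false

namespace Fermat.Agent.DivPoly

open WeierstrassCurve WeierstrassCurve.Affine Fermat.Agent.S05

variable {K : Type*} [Field K] [DecidableEq K] {W : Affine K}

/-- `(x(A+B) - x(A-B)) (x_A - x_B)² = - Y_A Y_B`. -/
lemma xc_add_sub_xc_sub {P Q : W.Point} (hP : P ≠ 0) (hQ : Q ≠ 0) (hx : xc P ≠ xc Q) :
    (xc (P + Q) - xc (P - Q)) * (xc P - xc Q) ^ 2 = -(yc P * yc Q) := by
  rcases P with _ | ⟨x₁, y₁, h₁⟩
  · exact absurd rfl hP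
  rcases Q with _ | ⟨x₂, y₂, h₂⟩
  · exact absurd rfl hQ
  simp only [xc_some] at hx
  rw [sub_eq_add_neg (Point.some x₁ y₁ h₁), Point.neg_some, Point.add_of_X_ne hx,
    Point.add_of_X_ne hx]
  simp only [xc_some, yc_some, addX, slope_of_X_ne hx, negY]
  have : x₁ - x₂ ≠ 0 := sub_ne_zero.mpr hx
  field_simp
  ring

/-- `(x(A+B) - x_A)(x(A-B) - x_A)(x_A - x_B)² = (x(2A) - x_B) Y_A²`. -/
lemma xc_biquad {P Q : W.Point} (hP : P ≠ 0) (hQ : Q ≠ 0) (hx : xc P ≠ xc Q)
    (h2 : P + P ≠ 0) :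
    (xc (P + Q) - xc P) * (xc (P - Q) - xc P) * (xc P - xc Q) ^ 2 =
      (xc (P + P) - xc Q) * yc P ^ 2 := by
  have hs := xc_add_add_xc_sub hP hQ hx
  have hm := xc_add_mul_xc_sub hP hQ hx
  have hd := xc_add_self h2
  rw [yc_sq P hP]
  have e1 : (xc (P + Q) - xc P) * (xc (P - Q) - xc P) * (xc P - xc Q) ^ 2 =
      F0 W (xc P) (xc Q) - xc P * F1 W (xc P) (xc Q) + xc P ^ 2 * (xc P - xc Q) ^ 2 := by
    rw [← hs, ← hm]; ring
  have e2 : (xc (P + P) - xc Q) * D2 W (xc P) = F0 W (xc P) (xc P) - xc Q * D2 W (xc P) := by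
    rw [← hd]; ring
  rw [e1, e2]
  simp only [F0, F1, D2]
  ring

/-- The numerical division sequence `ψₙ(P)` at a point. -/
noncomputable def E (P : W.Point) (n : ℤ) : K :=
  normEDS (yc P) ((W.Ψ₃).eval (xc P)) ((W.preΨ₄).eval (xc P)) n

omit [DecidableEq K] in
@[simp] lemma E_zero (P : W.Point) : E P 0 = 0 := normEDS_zero ..
omit [DecidableEq K] in
@[simp] lemma E_one (P : W.Point) : E P 1 = 1 := normEDS_one ..
omit [DecidableEq K] in
@[simp] lemma E_two (P : W.Point) : E P 2 = yc P := normEDS_two ..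
omit [DecidableEq K] in
@[simp] lemma E_three (P : W.Point) : E P 3 = (W.Ψ₃).eval (xc P) := normEDS_three ..
omit [DecidableEq K] in
@[simp] lemma E_four (P : W.Point) : E P 4 = (W.preΨ₄).eval (xc P) * yc P := normEDS_four ..

/-- The relation `ψₖ₊₁ ψₖ₋₁ = (x(P) - x(kP)) ψₖ²`. -/
def S (P : W.Point) (k : ℤ) : Prop :=
  E P (k + 1) * E P (k - 1) = (xc P - xc (k • P)) * E P k ^ 2

lemma E_odd_of_S (P : W.Point) (m : ℤ) (h1 : S P (m + 1)) (h0 : S P m) :
    E P (2 * m + 1) = (xc (m • P) - xc ((m + 1) • P)) * E P m ^ 2 * E P (m + 1) ^ 2 := by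
  unfold S at h1 h0
  rw [show m + 1 + 1 = m + 2 by ring, show m + 1 - 1 = m by ring] at h1
  have := normEDS_odd (yc P) ((W.Ψ₃).eval (xc P)) ((W.preΨ₄).eval (xc P)) m
  change E P (2 * m + 1) = E P (m + 2) * E P m ^ 3 - E P (m - 1) * E P (m + 1) ^ 3 at this
  rw [this]
  linear_combination (E P m) ^ 2 * h1 - (E P (m + 1)) ^ 2 * h0

lemma E_even_of_S (P : W.Point) (m : ℤ) (h1 : S P (m + 1)) (h0 : S P (m - 1)) :
    E P (2 * m) * yc P =
      (xc ((m - 1) • P) - xc ((m + 1) • P)) * E P (m + 1) ^ 2 * E P (m - 1) ^ 2 := by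
  unfold S at h1 h0
  rw [show m + 1 + 1 = m + 2 by ring, show m + 1 - 1 = m by ring] at h1
  rw [show m - 1 + 1 = m by ring, show m - 1 - 1 = m - 2 by ring] at h0
  have := normEDS_even (yc P) ((W.Ψ₃).eval (xc P)) ((W.preΨ₄).eval (xc P)) m
  change E P (2 * m) * yc P = E P (m - 1) ^ 2 * E P m * E P (m + 2) -
    E P (m - 2) * E P m * E P (m + 1) ^ 2 at this
  rw [this]
  linear_combination (E P (m - 1)) ^ 2 * h1 - (E P (m + 1)) ^ 2 * h0

/-- `ψ₂ₘ(P) = Y(mP) ψₘ(P)⁴`. -/
lemma E_two_mul (P : W.Point) (m : ℤ) (h1 : S P (m + 1)) (hm : S P m) (h0 : S P (m - 1))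
    (hP : P ≠ 0) (hY : yc P ≠ 0) (g0 : m • P ≠ 0) (g1 : (m + 1) • P ≠ 0)
    (g2 : (m - 1) • P ≠ 0) :
    E P (2 * m) = yc (m • P) * E P m ^ 4 := by
  have he := E_even_of_S P m h1 h0
  unfold S at hm
  have hx : xc (m • P) ≠ xc P := by
    apply xc_ne_of_ne g0 hP
    · intro h; apply g2; rw [sub_smul, one_smul, h, sub_self]
    · intro h; apply g1; rw [add_smul, one_smul, h, neg_add_cancel]
  have hd := xc_add_sub_xc_sub g0 hP hx
  have ea : m • P + P = (m + 1) • P := by rw [add_smul, one_smul]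
  have es : m • P - P = (m - 1) • P := by rw [sub_smul, one_smul]
  rw [ea, es] at hd
  apply mul_right_cancel₀ hY
  rw [he]
  have e1 : E P (m + 1) ^ 2 * E P (m - 1) ^ 2 = (xc P - xc (m • P)) ^ 2 * E P m ^ 4 := by
    have : E P (m + 1) ^ 2 * E P (m - 1) ^ 2 = (E P (m + 1) * E P (m - 1)) ^ 2 := by ring
    rw [this, hm]; ring
  rw [mul_assoc, e1]
  linear_combination (-(E P m) ^ 4) * hd

omit [DecidableEq K] in
lemma eval_Ψ₃ (x : K) : (W.Ψ₃).eval x =
    3 * x ^ 4 + W.b₂ * x ^ 3 + 3 * W.b₄ * x ^ 2 + 3 * W.b₆ * x + W.b₈ := by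
  simp [Ψ₃]

omit [DecidableEq K] in
lemma eval_preΨ₄ (x : K) : (W.preΨ₄).eval x =
    2 * x ^ 6 + W.b₂ * x ^ 5 + 5 * W.b₄ * x ^ 4 + 10 * W.b₆ * x ^ 3 + 10 * W.b₈ * x ^ 2 +
      (W.b₂ * W.b₈ - W.b₄ * W.b₆) * x + (W.b₄ * W.b₈ - W.b₆ ^ 2) := by
  simp [preΨ₄]

lemma S_one (P : W.Point) : S P 1 := by
  unfold S
  simp

lemma S_two (P : W.Point) (hP : P ≠ 0) (h2 : (2 : ℤ) • P ≠ 0) : S P 2 := by
  unfold S
  have h2' : P + P ≠ 0 := by rwa [two_smul] at h2
  have hd := xc_add_self h2'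
  rw [show (2 : ℤ) + 1 = 3 by norm_num, show (2 : ℤ) - 1 = 1 by norm_num, E_three, E_one, E_two,
    yc_sq P hP, two_smul, eval_Ψ₃, mul_one, sub_mul, hd]
  simp only [F0, D2]
  ring

lemma S_three (P : W.Point) (hP : P ≠ 0) (h2 : (2 : ℤ) • P ≠ 0) (h3 : (3 : ℤ) • P ≠ 0) :
    S P 3 := by
  have hS2 := S_two P hP h2
  unfold S at hS2 ⊢
  have h2' : P + P ≠ 0 := by rwa [two_smul] at h2
  have hu := xc_add_self h2'
  rw [show (2 : ℤ) + 1 = 3 by norm_num, show (2 : ℤ) - 1 = 1 by norm_num, E_one, E_two,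
    yc_sq P hP, two_smul, mul_one] at hS2
  have hx : xc (P + P) ≠ xc P := by
    apply xc_ne_of_ne h2' hP
    · intro h; exact hP (by simpa using h)
    · intro h; apply h3
      rw [show (3 : ℤ) = 1 + 1 + 1 by norm_num, add_smul, add_smul, one_smul, h, neg_add_cancel]
  have hs := xc_add_add_xc_sub h2' hP hx
  have e3 : (3 : ℤ) • P = P + P + P := by
    rw [show (3 : ℤ) = 1 + 1 + 1 by norm_num, add_smul, add_smul, one_smul]
  rw [add_sub_cancel_right] at hs
  rw [show (3 : ℤ) + 1 = 4 by norm_num, show (3 : ℤ) - 1 = 2 by norm_num, E_four, E_two, hS2, e3,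
    mul_assoc, ← sq, yc_sq P hP]
  generalize xc (P + P + P) = t at *
  generalize xc (P + P) = u at *
  generalize xc P = x at *
  have key : (W.preΨ₄).eval x * D2 W x = 2 * x * (x * D2 W x - F0 W x x) ^ 2 -
      (2 * (F0 W x x + x * D2 W x) * F0 W x x * x + W.b₂ * F0 W x x * D2 W x * x
        + W.b₄ * (F0 W x x + x * D2 W x) * D2 W x + W.b₆ * D2 W x ^ 2) := by
    rw [eval_preΨ₄]
    simp only [F0, D2, b₂, b₄, b₆, b₈]
    ring
  rw [key, ← hu]
  simp only [F1] at hs
  linear_combination (D2 W x) ^ 2 * hs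

lemma S_even_step (P : W.Point) (m : ℤ) (h1 : S P (m + 1)) (hm : S P m) (h0 : S P (m - 1))
    (hP : P ≠ 0) (hY : yc P ≠ 0) (g0 : m • P ≠ 0) (g1 : (m + 1) • P ≠ 0)
    (g2 : (m - 1) • P ≠ 0) (g3 : (2 * m) • P ≠ 0) : S P (2 * m) := by
  have hE := E_two_mul P m h1 hm h0 hP hY g0 g1 g2
  have hO1 := E_odd_of_S P m h1 hm
  have hO0 := E_odd_of_S P (m - 1) (by rwa [sub_add_cancel]) h0
  rw [sub_add_cancel, show 2 * (m - 1) + 1 = 2 * m - 1 by ring] at hO0
  have hx : xc (m • P) ≠ xc P := by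
    apply xc_ne_of_ne g0 hP
    · intro h; apply g2; rw [sub_smul, one_smul, h, sub_self]
    · intro h; apply g1; rw [add_smul, one_smul, h, neg_add_cancel]
  have e2 : m • P + m • P = (2 * m) • P := by rw [two_mul, add_smul]
  have hb := xc_biquad g0 hP hx (by rw [e2]; exact g3)
  have ea : m • P + P = (m + 1) • P := by rw [add_smul, one_smul]
  have es : m • P - P = (m - 1) • P := by rw [sub_smul, one_smul]
  rw [ea, es, e2] at hb
  unfold S at hm ⊢
  rw [hO1, hO0, hE]
  have e1 : E P (m + 1) ^ 2 * E P (m - 1) ^ 2 = (xc P - xc (m • P)) ^ 2 * E P m ^ 4 := by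
    have : E P (m + 1) ^ 2 * E P (m - 1) ^ 2 = (E P (m + 1) * E P (m - 1)) ^ 2 := by ring
    rw [this, hm]; ring
  have e3 : (xc (m • P) - xc ((m + 1) • P)) * E P m ^ 2 * E P (m + 1) ^ 2 *
      ((xc ((m - 1) • P) - xc (m • P)) * E P (m - 1) ^ 2 * E P m ^ 2) =
      (xc (m • P) - xc ((m + 1) • P)) * (xc ((m - 1) • P) - xc (m • P)) * E P m ^ 4 *
        (E P (m + 1) ^ 2 * E P (m - 1) ^ 2) := by ring
  rw [e3, e1]
  linear_combination (-(E P m) ^ 8) * hb

lemma S_odd_step (P : W.Point) (m : ℤ) (h2 : S P (m + 2)) (h1 : S P (m + 1)) (hm : S P m)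
    (h0 : S P (m - 1))
    (hP : P ≠ 0) (hY : yc P ≠ 0) (g0 : m • P ≠ 0) (g1 : (m + 1) • P ≠ 0)
    (g2 : (m - 1) • P ≠ 0) (g3 : (m + 2) • P ≠ 0) (g4 : (2 * m + 1) • P ≠ 0) :
    S P (2 * m + 1) := by
  have hE0 := E_two_mul P m h1 hm h0 hP hY g0 g1 g2
  have hE1 := E_two_mul P (m + 1) (by rwa [show m + 1 + 1 = m + 2 by ring]) h1
    (by rwa [add_sub_cancel_right]) hP hY g1 (by rwa [show m + 1 + 1 = m + 2 by ring])
    (by rwa [add_sub_cancel_right])
  have hO1 := E_odd_of_S P m h1 hm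
  have ea : (m + 1) • P + m • P = (2 * m + 1) • P := by rw [← add_smul]; congr 1; ring
  have es : (m + 1) • P - m • P = P := by rw [add_smul, one_smul]; abel
  have hx : xc ((m + 1) • P) ≠ xc (m • P) := by
    apply xc_ne_of_ne g1 g0
    · intro h; apply hP; rw [← es, h, sub_self]
    · intro h; apply g4; rw [← ea, h, neg_add_cancel]
  have hd := xc_add_sub_xc_sub g1 g0 hx
  rw [ea, es] at hd
  unfold S
  rw [show 2 * m + 1 + 1 = 2 * (m + 1) by ring, show 2 * m + 1 - 1 = 2 * m by ring, hE0, hE1, hO1]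
  linear_combination ((E P m) ^ 4 * (E P (m + 1)) ^ 4) * hd

/-- **DP1'**: if `k • P ≠ 0` for `0 < k < n`, then for these `k` the numbers `ψₖ(P)` are nonzero
and `ψₖ₊₁ ψₖ₋₁ = (x(P) - x(kP)) ψₖ²`. -/
theorem S_and_ne_zero (P : W.Point) (n : ℕ) (hn : ∀ k : ℕ, 0 < k → k < n → k • P ≠ 0) :
    ∀ k : ℕ, 0 < k → k < n → S P k ∧ E P k ≠ 0 := by
  have hn' : ∀ k : ℤ, 0 < k → k < n → k • P ≠ 0 := by
    intro k h0 h1
    lift k to ℕ using h0.le
    rw [natCast_zsmul]
    exact hn k (by exact_mod_cast h0) (by exact_mod_cast h1)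
  intro k
  induction k using Nat.strong_induction_on with
  | _ k ih =>
    intro hk0 hkn
    have hP : P ≠ 0 := by
      have := hn 1 one_pos (by omega)
      rwa [one_smul] at this
    -- the relation `S k`
    have hS : S P k := by
      rcases Nat.lt_or_ge k 4 with hk4 | hk4
      · interval_cases k
        · exact S_one P
        · exact S_two P hP (hn' 2 (by norm_num) (by exact_mod_cast hkn))
        · exact S_three P hP (hn' 2 (by norm_num) (by have : (2 : ℕ) < n := by omega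
                                                      exact_mod_cast this))
            (hn' 3 (by norm_num) (by exact_mod_cast hkn))
      · have h2n : (2 : ℤ) • P ≠ 0 := hn' 2 (by norm_num) (by have : (2 : ℕ) < n := by omega
                                                              exact_mod_cast this)
        have hY : yc P ≠ 0 := by
          intro h
          apply h2n
          rw [two_smul]
          exact add_self_eq_zero_of_yc h
        rcases Nat.even_or_odd' k with ⟨m, rfl | rfl⟩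
        · have hm2 : 2 ≤ m := by omega
          have := S_even_step P (m : ℤ)
            (by have := (ih (m + 1) (by omega) (by omega) (by omega)).1
                exact_mod_cast this)
            ((ih m (by omega) (by omega) (by omega)).1)
            (by have := (ih (m - 1) (by omega) (by omega) (by omega)).1
                rwa [Nat.cast_sub (by omega), Nat.cast_one] at this)
            hP hY (hn' _ (by omega) (by omega)) (hn' _ (by omega) (by omega))
            (hn' _ (by omega) (by omega)) (hn' _ (by omega) (by omega))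
          exact_mod_cast this
        · have hm2 : 2 ≤ m := by omega
          have := S_odd_step P (m : ℤ)
            (by have := (ih (m + 2) (by omega) (by omega) (by omega)).1
                exact_mod_cast this)
            (by have := (ih (m + 1) (by omega) (by omega) (by omega)).1
                exact_mod_cast this)
            ((ih m (by omega) (by omega) (by omega)).1)
            (by have := (ih (m - 1) (by omega) (by omega) (by omega)).1
                rwa [Nat.cast_sub (by omega), Nat.cast_one] at this)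
            hP hY (hn' _ (by omega) (by omega)) (hn' _ (by omega) (by omega))
            (hn' _ (by omega) (by omega)) (hn' _ (by omega) (by omega))
            (hn' _ (by omega) (by omega))
          exact_mod_cast this
    refine ⟨hS, ?_⟩
    -- non-vanishing
    rcases Nat.lt_or_ge k 3 with hk3 | hk3
    · interval_cases k
      · simp
      · have h2n : (2 : ℤ) • P ≠ 0 := hn' 2 (by norm_num) (by exact_mod_cast hkn)
        rw [Nat.cast_ofNat, E_two]
        intro h
        apply h2n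
        rw [two_smul]
        exact add_self_eq_zero_of_yc h
    · obtain ⟨hS1, hE1⟩ := ih (k - 1) (by omega) (by omega) (by omega)
      unfold S at hS1
      rw [Nat.cast_sub (by omega), Nat.cast_one, sub_add_cancel] at hS1
      intro h0
      rw [h0, zero_mul] at hS1
      have hx : xc (((k : ℤ) - 1) • P) ≠ xc P := by
        apply xc_ne_of_ne (hn' _ (by omega) (by omega)) hP
        · intro h
          apply hn' ((k : ℤ) - 2) (by omega) (by omega)
          rw [show (k : ℤ) - 2 = (k - 1) - 1 by ring, sub_smul _ (1 : ℤ), one_smul, h, sub_self]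
        · intro h
          apply hn' (k : ℤ) (by omega) (by omega)
          rw [show (k : ℤ) = (k - 1) + 1 by ring, add_smul, one_smul, h, neg_add_cancel]
      rw [Nat.cast_sub (by omega), Nat.cast_one] at hE1
      have : (xc P - xc (((k : ℤ) - 1) • P)) * E P ((k : ℤ) - 1) ^ 2 ≠ 0 :=
        mul_ne_zero (sub_ne_zero.mpr hx.symm) (pow_ne_zero _ hE1)
      exact this hS1.symm

end Fermat.Agent.DivPoly
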