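import Mathlib
import Fermat.Agent.S05.Formulas

/-!
# DivPoly, part 1: the add-and-subtract map on x-coordinates, pointwise

`px P : pz P` are projective x-coordinates of a point.  We show that the explicit quadratic map
`(T0, T1, T2)` sends `sym2 (P, Q)` to a nonzero multiple of `sym2 (P + Q, P - Q)`.
-/

set_option autoImplicit false

namespace Fermat.Agent.DivPoly

open WeierstrassCurve WeierstrassCurve.Affine
open Fermat.Agent.S05 (xc yc F0 F1 D2)

section Maps

variable {R : Type*} [CommRing R]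

/-- first component of the add-and-subtract map -/
def T0 (b4 b6 b8 s t u : R) : R := s ^ 2 - b4 * s * u - b6 * t * u - b8 * u ^ 2
/-- second component of the add-and-subtract map -/
def T1 (b2 b4 b6 s t u : R) : R := 2 * t * s + b2 * s * u + b4 * t * u + b6 * u ^ 2
/-- third component of the add-and-subtract map -/
def T2 (s t u : R) : R := t ^ 2 - 4 * s * u

lemma T0_smul (b4 b6 b8 c s t u : R) :
    T0 b4 b6 b8 (c * s) (c * t) (c * u) = c ^ 2 * T0 b4 b6 b8 s t u := by
  unfold T0; ring

lemma T1_smul (b2 b4 b6 c s t u : R) :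
    T1 b2 b4 b6 (c * s) (c * t) (c * u) = c ^ 2 * T1 b2 b4 b6 s t u := by
  unfold T1; ring

lemma T2_smul (c s t u : R) : T2 (c * s) (c * t) (c * u) = c ^ 2 * T2 s t u := by
  unfold T2; ring

end Maps

variable {K : Type*} [Field K]

/-- the add-and-subtract map has no base point when `Δ ≠ 0` -/
theorem T_ne_zero (W : Affine K) (hΔ : W.Δ ≠ 0) {s t u : K}
    (h0 : T0 W.b₄ W.b₆ W.b₈ s t u = 0) (h1 : T1 W.b₂ W.b₄ W.b₆ s t u = 0) (h2 : T2 s t u = 0) :
    s = 0 ∧ t = 0 ∧ u = 0 := by
  have : W.IsElliptic := ⟨isUnit_iff_ne_zero.mpr hΔ⟩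
  by_contra hne
  have hx : (![s, t, u] : Fin 3 → K) ≠ 0 := by
    intro h
    apply hne
    have e0 := congrFun h 0
    have e1 := congrFun h 1
    have e2 := congrFun h 2
    simp at e0 e1 e2
    exact ⟨e0, e1, e2⟩
  apply WeierstrassCurve.addSubMap_ne_zero W hx
  funext i
  unfold T0 at h0
  unfold T1 at h1
  unfold T2 at h2
  fin_cases i
  · simp [WeierstrassCurve.addSubMap]
    linear_combination h0
  · simp [WeierstrassCurve.addSubMap]
    linear_combination h1
  · simp [WeierstrassCurve.addSubMap]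
    linear_combination h2

variable {W : Affine K}

/-- projective x-coordinate, numerator -/
def px : W.Point → K
  | .zero => 1
  | .some x _ _ => x

/-- projective x-coordinate, denominator -/
def pz : W.Point → K
  | .zero => 0
  | .some _ _ _ => 1

@[simp] lemma px_zero : px (0 : W.Point) = 1 := rfl
@[simp] lemma pz_zero : pz (0 : W.Point) = 0 := rfl
@[simp] lemma px_some {x y : K} (h : W.Nonsingular x y) : px (Point.some x y h) = x := rfl
@[simp] lemma pz_some {x y : K} (h : W.Nonsingular x y) : pz (Point.some x y h) = 1 := rfl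

lemma px_neg (P : W.Point) : px (-P) = px P := by cases P <;> rfl
lemma pz_neg (P : W.Point) : pz (-P) = pz P := by cases P <;> rfl

lemma px_of_ne {P : W.Point} (hP : P ≠ 0) : px P = xc P := by
  rcases P with _ | ⟨x, y, h⟩
  · exact absurd rfl hP
  · rfl

lemma pz_of_ne {P : W.Point} (hP : P ≠ 0) : pz P = 1 := by
  rcases P with _ | ⟨x, y, h⟩
  · exact absurd rfl hP
  · rfl

lemma pz_eq_zero_iff {P : W.Point} : pz P = 0 ↔ P = 0 := by
  rcases P with _ | ⟨x, y, h⟩
  · exact ⟨fun _ => rfl, fun _ => rfl⟩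
  · simp [Point.some_ne_zero]

lemma px_pz_ne_zero (P : W.Point) : ¬ (px P = 0 ∧ pz P = 0) := by
  rcases P with _ | ⟨x, y, h⟩
  · intro h; exact one_ne_zero h.1
  · intro h; exact one_ne_zero h.2

variable [DecidableEq K]

/-- **The add-and-subtract map does what it should.** -/
theorem addSub (hΔ : W.Δ ≠ 0) (P Q : W.Point) : ∃ c : K, c ≠ 0 ∧
    T0 W.b₄ W.b₆ W.b₈ (px P * px Q) (px P * pz Q + pz P * px Q) (pz P * pz Q)
      = c * (px (P + Q) * px (P - Q)) ∧
    T1 W.b₂ W.b₄ W.b₆ (px P * px Q) (px P * pz Q + pz P * px Q) (pz P * pz Q)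
      = c * (px (P + Q) * pz (P - Q) + pz (P + Q) * px (P - Q)) ∧
    T2 (px P * px Q) (px P * pz Q + pz P * px Q) (pz P * pz Q)
      = c * (pz (P + Q) * pz (P - Q)) := by
  by_cases hP : P = 0
  · subst hP
    refine ⟨1, one_ne_zero, ?_, ?_, ?_⟩ <;>
      simp only [zero_add, zero_sub, px_neg, pz_neg, px_zero, pz_zero, T0, T1, T2] <;> ring
  by_cases hQ : Q = 0
  · subst hQ
    refine ⟨1, one_ne_zero, ?_, ?_, ?_⟩ <;>
      simp only [add_zero, sub_zero, px_zero, pz_zero, T0, T1, T2] <;> ring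
  rw [px_of_ne hP, px_of_ne hQ, pz_of_ne hP, pz_of_ne hQ]
  by_cases hx : xc P = xc Q
  · -- `P = ± Q`
    have key : ∀ R : W.Point, R ≠ 0 → ∃ c : K, c ≠ 0 ∧
        T0 W.b₄ W.b₆ W.b₈ (xc R * xc R) (xc R * 1 + 1 * xc R) (1 * 1) = c * px (R + R) ∧
        T1 W.b₂ W.b₄ W.b₆ (xc R * xc R) (xc R * 1 + 1 * xc R) (1 * 1) = c * pz (R + R) := by
      intro R hR
      by_cases h2 : R + R = 0
      · have hy := Fermat.Agent.S05.yc_eq_zero_of_add_self h2
        have hD : D2 W (xc R) = 0 := by
          rw [← Fermat.Agent.S05.yc_sq R hR, hy]; ring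
        have h1 : T1 W.b₂ W.b₄ W.b₆ (xc R * xc R) (xc R * 1 + 1 * xc R) (1 * 1) = 0 := by
          rw [← hD]; simp only [T1, D2]; ring
        have h2' : T2 (xc R * xc R) (xc R * 1 + 1 * xc R) (1 * 1) = 0 := by
          simp only [T2]; ring
        refine ⟨T0 W.b₄ W.b₆ W.b₈ (xc R * xc R) (xc R * 1 + 1 * xc R) (1 * 1), ?_, ?_, ?_⟩
        · intro h0
          have := (T_ne_zero W hΔ h0 h1 h2').2.2
          simp at this
        · rw [h2]; simp
        · rw [h2, h1]; simp
      · have hD : D2 W (xc R) ≠ 0 := by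
          rw [← Fermat.Agent.S05.yc_sq R hR]
          intro h
          exact h2 (Fermat.Agent.S05.add_self_eq_zero_of_yc (pow_eq_zero_iff (two_ne_zero)|>.1 h))
        refine ⟨D2 W (xc R), hD, ?_, ?_⟩
        · rw [px_of_ne h2]
          have e := Fermat.Agent.S05.xc_add_self h2
          simp only [F0] at e
          simp only [T0]
          linear_combination -e
        · rw [pz_of_ne h2]
          simp only [T1, D2]; ring
    rcases Fermat.Agent.S05.eq_or_eq_neg_of_xc_eq hP hQ hx with h | h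
    · subst h
      obtain ⟨c, hc, e0, e1⟩ := key P hP
      refine ⟨c, hc, ?_, ?_, ?_⟩
      · rw [e0]; simp
      · rw [e1]; simp
      · simp only [T2, sub_self, pz_zero]; ring
    · have hQ' : Q = -P := by rw [h, neg_neg]
      subst hQ'
      obtain ⟨c, hc, e0, e1⟩ := key P hP
      rw [Fermat.Agent.S05.xc_neg]
      refine ⟨c, hc, ?_, ?_, ?_⟩
      · rw [e0]; simp
      · rw [e1]; simp
      · simp only [T2, add_neg_cancel, pz_zero]; ring
  · have hne : xc P - xc Q ≠ 0 := sub_ne_zero.mpr hx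
    have hadd : P + Q ≠ 0 := by
      intro h
      apply hx
      rw [eq_neg_of_add_eq_zero_left h, Fermat.Agent.S05.xc_neg]
    have hsub : P - Q ≠ 0 := by
      intro h
      apply hx
      rw [sub_eq_zero.mp h]
    refine ⟨(xc P - xc Q) ^ 2, pow_ne_zero 2 hne, ?_, ?_, ?_⟩
    · rw [px_of_ne hadd, px_of_ne hsub]
      have e := Fermat.Agent.S05.xc_add_mul_xc_sub hP hQ hx
      simp only [F0] at e
      simp only [T0]
      linear_combination -e
    · rw [px_of_ne hadd, px_of_ne hsub, pz_of_ne hadd, pz_of_ne hsub]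
      have e := Fermat.Agent.S05.xc_add_add_xc_sub hP hQ hx
      simp only [F1] at e
      simp only [T1]
      linear_combination -e
    · rw [pz_of_ne hadd, pz_of_ne hsub]
      simp only [T2]; ring

omit [DecidableEq K] in
/-- every `x` is the x-coordinate of a point -/
theorem exists_point' [IsAlgClosed K] (W : Affine K) (hΔ : W.Δ ≠ 0) (x : K) :
    ∃ y : K, W.Nonsingular x y := by
  classical
  let p : Polynomial K := Polynomial.X ^ 2 + Polynomial.C (W.a₁ * x + W.a₃) * Polynomial.X
    - Polynomial.C (x^3 + W.a₂*x^2 + W.a₄*x + W.a₆)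
  have hdeg : p.degree ≠ 0 := by
    have : p.degree = 2 := by
      simp only [p]
      compute_degree!
    rw [this]
    norm_num
  obtain ⟨y, hy⟩ := IsAlgClosed.exists_root p hdeg
  refine ⟨y, (W.equation_iff_nonsingular_of_Δ_ne_zero hΔ).mp ?_⟩
  rw [Affine.equation_iff]
  simp only [p, Polynomial.IsRoot.def, Polynomial.eval_sub, Polynomial.eval_add,
    Polynomial.eval_pow, Polynomial.eval_X, Polynomial.eval_mul, Polynomial.eval_C] at hy
  linear_combination hy

end Fermat.Agent.DivPoly
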