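import Mathlib
import Fermat.Agent.DivPoly.Pointwise

/-!
# DivPoly, part 2: the induction step for the multiplication polynomials
-/

set_option autoImplicit false

namespace Fermat.Agent.DivPoly

open WeierstrassCurve WeierstrassCurve.Affine Polynomial

variable {K : Type*} [Field K]

/-- `T0` evaluated at the polynomial triple attached to `(F : G)` and `(X : 1)` -/
noncomputable def PT0 (W : Affine K) (F G : K[X]) : K[X] :=
  T0 (C W.b₄) (C W.b₆) (C W.b₈) (X * F) (F + X * G) G
/-- `T1` evaluated at the polynomial triple attached to `(F : G)` and `(X : 1)` -/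
noncomputable def PT1 (W : Affine K) (F G : K[X]) : K[X] :=
  T1 (C W.b₂) (C W.b₄) (C W.b₆) (X * F) (F + X * G) G
/-- `T2` evaluated at the polynomial triple attached to `(F : G)` and `(X : 1)` -/
noncomputable def PT2 (F G : K[X]) : K[X] := T2 (X * F) (F + X * G) G

lemma PT2_eq (F G : K[X]) : PT2 F G = (F - X * G) ^ 2 := by
  unfold PT2 T2; ring

lemma eval_PT0 (W : Affine K) (F G : K[X]) (x : K) : (PT0 W F G).eval x =
    T0 W.b₄ W.b₆ W.b₈ (x * F.eval x) (F.eval x + x * G.eval x) (G.eval x) := by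
  simp [PT0, T0]

lemma eval_PT1 (W : Affine K) (F G : K[X]) (x : K) : (PT1 W F G).eval x =
    T1 W.b₂ W.b₄ W.b₆ (x * F.eval x) (F.eval x + x * G.eval x) (G.eval x) := by
  simp [PT1, T1]

lemma eval_PT2 (F G : K[X]) (x : K) : (PT2 F G).eval x =
    T2 (x * F.eval x) (F.eval x + x * G.eval x) (G.eval x) := by
  simp [PT2, T2]

section Degrees

variable (W : Affine K) {F G : K[X]} {k : ℕ}

lemma natDegree_le_of_X_mul {G : K[X]} {k : ℕ} (h : (X * G).natDegree ≤ k + 1) :
    G.natDegree ≤ k := by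
  rw [natDegree_le_iff_coeff_eq_zero] at h ⊢
  intro N hN
  have := h (N + 1) (by omega)
  rwa [coeff_X_mul] at this

lemma PT0_monic_aux (hF : F.Monic) (hdF : F.natDegree = k + 1) (hdG : G.natDegree ≤ k) :
    (PT0 W F G).Monic ∧ (PT0 W F G).natDegree = 2 * k + 4 := by
  have hXF : (X * F).Monic := monic_X.mul hF
  have hXFd : (X * F).natDegree = k + 2 := by
    rw [monic_X.natDegree_mul hF, natDegree_X, hdF]; ring
  have hsq : ((X * F) ^ 2).Monic := hXF.pow 2
  have hsqd : ((X * F) ^ 2).natDegree = 2 * k + 4 := by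
    rw [hXF.natDegree_pow, hXFd]; ring
  have hR : (-(C W.b₄ * (X * F) * G) - C W.b₆ * (F + X * G) * G - C W.b₈ * G ^ 2).natDegree
      < 2 * k + 4 := by
    have : (-(C W.b₄ * (X * F) * G) - C W.b₆ * (F + X * G) * G - C W.b₈ * G ^ 2).natDegree
      ≤ 2 * k + 3 := by
      compute_degree
      simp only [max_le_iff]
      omega
    omega
  have heq : PT0 W F G = (X * F) ^ 2 +
      (-(C W.b₄ * (X * F) * G) - C W.b₆ * (F + X * G) * G - C W.b₈ * G ^ 2) := by
    unfold PT0 T0; ring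
  rw [heq]
  refine ⟨hsq.add_of_left (degree_lt_degree (by rw [hsqd]; exact hR)), ?_⟩
  rw [natDegree_add_eq_left_of_natDegree_lt (by rw [hsqd]; exact hR), hsqd]

lemma PT1_aux (hF : F.Monic) (hdF : F.natDegree = k + 1) (hdG : G.natDegree ≤ k) :
    (PT1 W F G).natDegree ≤ 2 * k + 3 ∧ (PT1 W F G).coeff (2 * k + 3) = 2 * (1 + G.coeff k) := by
  have hXFd : (X * F).natDegree ≤ k + 2 := by
    rw [monic_X.natDegree_mul hF, natDegree_X, hdF]; omega
  have htd : (F + X * G).natDegree ≤ k + 1 := by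
    compute_degree
    simp only [max_le_iff]
    omega
  have hR : (C W.b₂ * (X * F) * G + C W.b₄ * (F + X * G) * G + C W.b₆ * G ^ 2).natDegree
      ≤ 2 * k + 2 := by
    compute_degree
    simp only [max_le_iff]
    omega
  have heq : PT1 W F G = C 2 * ((F + X * G) * (X * F)) +
      (C W.b₂ * (X * F) * G + C W.b₄ * (F + X * G) * G + C W.b₆ * G ^ 2) := by
    unfold PT1 T1
    simp only [map_ofNat]
    ring
  have hmul : ((F + X * G) * (X * F)).natDegree ≤ 2 * k + 3 :=
    (natDegree_mul_le_of_le htd hXFd).trans (by omega)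
  constructor
  · rw [heq]
    refine natDegree_add_le_of_degree_le ((natDegree_C_mul_le _ _).trans hmul) (hR.trans (by omega))
  · rw [heq, coeff_add, coeff_C_mul, coeff_eq_zero_of_natDegree_lt (lt_of_le_of_lt hR (by omega)),
      add_zero]
    have h23 : 2 * k + 3 = (k + 1) + (k + 2) := by ring
    rw [h23, coeff_mul_add_eq_of_natDegree_le htd hXFd, coeff_add, coeff_X_mul, coeff_X_mul]
    have : F.coeff (k + 1) = 1 := by rw [← hdF]; exact hF.coeff_natDegree
    rw [this]
    ring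

end Degrees

variable [DecidableEq K]

/-- The invariant of the induction. -/
structure Inv (W : Affine K) (n : ℕ) (F G : K[X]) : Prop where
  monic : F.Monic
  degF : F.natDegree = n ^ 2
  degG : (X * G).natDegree ≤ n ^ 2
  leadG : (X * G).coeff (n ^ 2) = (n : K) ^ 2
  noroot : ∀ x, ¬ (F.eval x = 0 ∧ G.eval x = 0)
  rep : ∀ (x y : K) (h : W.Nonsingular x y), ∃ c : K, c ≠ 0 ∧
    F.eval x = c * px (n • Point.some x y h) ∧ G.eval x = c * pz (n • Point.some x y h)

variable {W : Affine K}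

lemma Inv.zero : Inv W 0 1 0 where
  monic := monic_one
  degF := by simp
  degG := by simp
  leadG := by simp
  noroot := by simp
  rep := fun x y h => ⟨1, one_ne_zero, by simp, by simp⟩

lemma Inv.one : Inv W 1 X 1 where
  monic := monic_X
  degF := by simp
  degG := by simp
  leadG := by simp
  noroot := by simp
  rep := fun x y h => ⟨1, one_ne_zero, by simp, by simp⟩

lemma Inv.isCoprime [IsAlgClosed K] {n : ℕ} {F G : K[X]} (h : Inv W n F G) : IsCoprime F G := by
  rw [Polynomial.isCoprime_iff_aeval_ne_zero_of_isAlgClosed (k := K) K]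
  intro a
  have := h.noroot a
  simp only [coe_aeval_eq_eval]
  tauto

/-- pointwise description of the polynomial triple -/
lemma Inv.pointwise (hΔ : W.Δ ≠ 0) {n : ℕ} {F1 G1 : K[X]} (h1 : Inv W (n + 1) F1 G1)
    (x y : K) (h : W.Nonsingular x y) : ∃ c : K, c ≠ 0 ∧
    (PT0 W F1 G1).eval x
      = c * (px ((n + 2) • Point.some x y h) * px (n • Point.some x y h)) ∧
    (PT1 W F1 G1).eval x
      = c * (px ((n + 2) • Point.some x y h) * pz (n • Point.some x y h)
          + pz ((n + 2) • Point.some x y h) * px (n • Point.some x y h)) ∧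
    (PT2 F1 G1).eval x
      = c * (pz ((n + 2) • Point.some x y h) * pz (n • Point.some x y h)) := by
  obtain ⟨c1, hc1, eF, eG⟩ := h1.rep x y h
  obtain ⟨c, hc, e0, e1, e2⟩ := addSub hΔ ((n + 1) • Point.some x y h) (Point.some x y h)
  have hadd : (n + 1) • Point.some x y h + Point.some x y h = (n + 2) • Point.some x y h := by
    rw [← succ_nsmul]
  have hsub : (n + 1) • Point.some x y h - Point.some x y h = n • Point.some x y h := by
    rw [succ_nsmul, add_sub_cancel_right]
  rw [hadd, hsub, px_some, pz_some] at e0 e1 e2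
  refine ⟨c1 ^ 2 * c, mul_ne_zero (pow_ne_zero 2 hc1) hc, ?_, ?_, ?_⟩
  · rw [eval_PT0, eF, eG, mul_assoc, ← e0, ← T0_smul]
    congr 1 <;> ring
  · rw [eval_PT1, eF, eG, mul_assoc, ← e1, ← T1_smul]
    congr 1 <;> ring
  · rw [eval_PT2, eF, eG, mul_assoc, ← e2, ← T2_smul]
    congr 1 <;> ring

/-- **The induction step.** -/
theorem Inv.step [IsAlgClosed K] (hΔ : W.Δ ≠ 0) {n : ℕ} {F0 G0 F1 G1 : K[X]}
    (h0 : Inv W n F0 G0) (h1 : Inv W (n + 1) F1 G1) :
    ∃ F2 G2 : K[X], Inv W (n + 2) F2 G2 ∧ PT0 W F1 G1 = F0 * F2 ∧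
      PT1 W F1 G1 - F2 * G0 = F0 * G2 ∧ PT2 F1 G1 = G2 * G0 := by
  -- the polynomial identity
  have hQ : PT2 F1 G1 * F0 ^ 2 - PT1 W F1 G1 * F0 * G0 + PT0 W F1 G1 * G0 ^ 2 = 0 := by
    apply Polynomial.funext
    intro x
    obtain ⟨y, h⟩ := exists_point' W hΔ x
    obtain ⟨c, -, e0, e1, e2⟩ := h1.pointwise hΔ x y h
    obtain ⟨c0, -, eF, eG⟩ := h0.rep x y h
    simp only [eval_add, eval_sub, eval_mul, eval_pow, eval_zero]
    rw [e0, e1, e2, eF, eG]
    ring
  have hcop : IsCoprime F0 G0 := h0.isCoprime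
  have hF0 : F0 ≠ 0 := h0.monic.ne_zero
  -- `F0 ∣ PT0`
  have hd0 : F0 ∣ PT0 W F1 G1 := by
    have : F0 ∣ PT0 W F1 G1 * G0 ^ 2 :=
      ⟨PT1 W F1 G1 * G0 - PT2 F1 G1 * F0, by linear_combination hQ⟩
    exact (hcop.pow_right (n := 2)).dvd_of_dvd_mul_right this
  obtain ⟨F2, hF2⟩ := hd0
  have hQ' : PT2 F1 G1 * F0 - PT1 W F1 G1 * G0 + F2 * G0 ^ 2 = 0 := by
    apply mul_left_cancel₀ hF0
    rw [hF2] at hQ
    linear_combination hQ
  have hd1 : F0 ∣ PT1 W F1 G1 - F2 * G0 := by
    have : F0 ∣ (PT1 W F1 G1 - F2 * G0) * G0 := ⟨PT2 F1 G1, by linear_combination -hQ'⟩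
    exact hcop.dvd_of_dvd_mul_right this
  obtain ⟨G2, hG2⟩ := hd1
  have hT2 : PT2 F1 G1 = G2 * G0 := by
    apply mul_left_cancel₀ hF0
    linear_combination hQ' + G0 * hG2
  refine ⟨F2, G2, ?_, hF2, hG2, hT2⟩
  -- degrees
  set k := n ^ 2 + 2 * n with hk
  have hk1 : (n + 1) ^ 2 = k + 1 := by rw [hk]; ring
  have hdF1 : F1.natDegree = k + 1 := by rw [h1.degF, hk1]
  have hdG1 : G1.natDegree ≤ k := natDegree_le_of_X_mul (by rw [← hk1]; exact h1.degG)
  have hcG1 : G1.coeff k = ((n : K) + 1) ^ 2 := by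
    have := h1.leadG
    rw [hk1, coeff_X_mul] at this
    rw [this]; push_cast; ring
  obtain ⟨hm0, hd0⟩ := PT0_monic_aux W h1.monic hdF1 hdG1
  obtain ⟨hd1, hc1⟩ := PT1_aux W h1.monic hdF1 hdG1
  have hF2m : F2.Monic := by
    rw [hF2] at hm0
    exact h0.monic.of_mul_monic_left hm0
  have hF2d : F2.natDegree = (n + 2) ^ 2 := by
    have := h0.monic.natDegree_mul hF2m
    rw [← hF2, hd0, h0.degF] at this
    have h3 : (n + 2) ^ 2 + n ^ 2 = 2 * k + 4 := by rw [hk]; ring
    omega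
  have hsum : (n + 2) ^ 2 + n ^ 2 = 2 * k + 4 := by rw [hk]; ring
  have hmain : (X * G2) * F0 = X * PT1 W F1 G1 - F2 * (X * G0) := by
    linear_combination -X * hG2
  have hXT1 : (X * PT1 W F1 G1).natDegree ≤ 2 * k + 4 :=
    (natDegree_mul_le_of_le natDegree_X_le hd1).trans (by omega)
  have hFG0 : (F2 * (X * G0)).natDegree ≤ 2 * k + 4 :=
    (natDegree_mul_le_of_le hF2d.le h0.degG).trans hsum.le
  have hrhs : ((X * G2) * F0).natDegree ≤ 2 * k + 4 := by
    rw [hmain]
    exact (natDegree_sub_le_of_le hXT1 hFG0).trans (by simp)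
  have hXG2d : (X * G2).natDegree ≤ (n + 2) ^ 2 := by
    by_cases hz : X * G2 = 0
    · rw [hz]; simp
    · rw [natDegree_mul hz hF0, h0.degF] at hrhs
      omega
  have hXG2c : (X * G2).coeff ((n + 2) ^ 2) = ((n + 2 : ℕ) : K) ^ 2 := by
    have e1 : ((X * G2) * F0).coeff ((n + 2) ^ 2 + n ^ 2)
        = (X * G2).coeff ((n + 2) ^ 2) * F0.coeff (n ^ 2) :=
      coeff_mul_add_eq_of_natDegree_le hXG2d h0.degF.le
    have e2 : F0.coeff (n ^ 2) = 1 := by rw [← h0.degF]; exact h0.monic.coeff_natDegree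
    have e3 : (F2 * (X * G0)).coeff ((n + 2) ^ 2 + n ^ 2)
        = F2.coeff ((n + 2) ^ 2) * (X * G0).coeff (n ^ 2) :=
      coeff_mul_add_eq_of_natDegree_le hF2d.le h0.degG
    have e4 : F2.coeff ((n + 2) ^ 2) = 1 := by rw [← hF2d]; exact hF2m.coeff_natDegree
    have e5 : (X * PT1 W F1 G1).coeff ((n + 2) ^ 2 + n ^ 2) = 2 * (1 + G1.coeff k) := by
      rw [hsum, show 2 * k + 4 = (2 * k + 3) + 1 by ring, coeff_X_mul, hc1]
    rw [hmain, coeff_sub, e3, e4, e5, h0.leadG, e2, hcG1] at e1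
    push_cast
    linear_combination -e1
  refine ⟨hF2m, hF2d, hXG2d, hXG2c, ?_, ?_⟩
  · -- no common root
    rintro x ⟨hx1, hx2⟩
    have z0 : (PT0 W F1 G1).eval x = 0 := by rw [hF2, eval_mul, hx1, mul_zero]
    have z1 : (PT1 W F1 G1).eval x = 0 := by
      have := congrArg (eval x) hG2
      rw [eval_sub, eval_mul, eval_mul, hx1, hx2] at this
      simpa using this
    have z2 : (PT2 F1 G1).eval x = 0 := by rw [hT2, eval_mul, hx2, zero_mul]
    rw [eval_PT0] at z0
    rw [eval_PT1] at z1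
    rw [eval_PT2] at z2
    obtain ⟨-, ht, hu⟩ := T_ne_zero W hΔ z0 z1 z2
    apply h1.noroot x
    refine ⟨?_, hu⟩
    rw [hu] at ht
    simpa using ht
  · -- representation
    intro x y h
    obtain ⟨c, hc, e0, e1, e2⟩ := h1.pointwise hΔ x y h
    obtain ⟨c0, hc0, eF, eG⟩ := h0.rep x y h
    have hab := px_pz_ne_zero (n • Point.some x y h)
    set a := px (n • Point.some x y h)
    set b := pz (n • Point.some x y h)
    set α := px ((n + 2) • Point.some x y h)
    set β := pz ((n + 2) • Point.some x y h)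
    have E0 : c0 * a * F2.eval x = c * (α * a) := by
      rw [← e0, hF2, eval_mul, eF]
    have E1 : c * (α * b + β * a) - F2.eval x * (c0 * b) = c0 * a * G2.eval x := by
      rw [← e1, ← eF, ← eG, ← eval_mul, ← eval_mul, ← eval_sub, hG2]
    have E2 : c * (β * b) = G2.eval x * (c0 * b) := by
      rw [← e2, hT2, eval_mul, eG]
    have hA : (c0 * F2.eval x - c * α) * a = 0 := by linear_combination E0
    have hB : (c0 * G2.eval x - c * β) * b = 0 := by linear_combination -E2
    have hAB : (c0 * F2.eval x - c * α) * b + (c0 * G2.eval x - c * β) * a = 0 := by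
      linear_combination -E1
    have hboth : c0 * F2.eval x - c * α = 0 ∧ c0 * G2.eval x - c * β = 0 := by
      by_cases ha : a = 0
      · have hb : b ≠ 0 := fun hb => hab ⟨ha, hb⟩
        have hB' := (mul_eq_zero.mp hB).resolve_right hb
        rw [hB', ha] at hAB
        simp only [add_zero, mul_zero] at hAB
        exact ⟨(mul_eq_zero.mp hAB).resolve_right hb, hB'⟩
      · have hA' := (mul_eq_zero.mp hA).resolve_right ha
        rw [hA'] at hAB
        simp only [zero_mul, zero_add] at hAB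
        exact ⟨hA', (mul_eq_zero.mp hAB).resolve_right ha⟩
    refine ⟨c / c0, div_ne_zero hc hc0, ?_, ?_⟩
    · field_simp
      linear_combination hboth.1
    · field_simp
      linear_combination hboth.2

end Fermat.Agent.DivPoly
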