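import Fermat.Agent.DivPoly.Basic

set_option autoImplicit false

namespace Fermat.Agent.DivPoly

open WeierstrassCurve WeierstrassCurve.Affine Fermat.Agent.S05 Polynomial

variable {K : Type*} [Field K] {W : Affine K}

lemma eval_Ψ₂Sq (x : K) : (W.Ψ₂Sq).eval x = D2 W x := by
  simp [Ψ₂Sq, D2]

/-- `ψₙ(P)` in terms of Mathlib's univariate polynomials `preΨₙ`. -/
lemma E_eq (P : W.Point) (hP : P ≠ 0) (n : ℤ) :
    E P n = (W.preΨ n).eval (xc P) * (if Even n then yc P else 1) := by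
  have h1 : (W.preΨ n).eval (xc P) =
      preNormEDS ((yc P) ^ 4) ((W.Ψ₃).eval (xc P)) ((W.preΨ₄).eval (xc P)) n := by
    have := map_preNormEDS (evalRingHom (xc P)) (W.Ψ₂Sq ^ 2) W.Ψ₃ W.preΨ₄ n
    simp only [coe_evalRingHom, eval_pow, eval_Ψ₂Sq, ← yc_sq P hP] at this
    rw [preΨ, this]
    congr 1
    ring
  rw [h1]
  rfl

lemma E_sq (P : W.Point) (hP : P ≠ 0) (n : ℤ) : E P n ^ 2 = (W.ΨSq n).eval (xc P) := by
  rw [E_eq P hP, ΨSq, eval_mul, eval_pow, mul_pow]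
  split_ifs
  · rw [yc_sq P hP, eval_Ψ₂Sq]
  · simp

variable [DecidableEq K]

/-- If `P` has exact order `n ≥ 2`, then `ψₙ(P) = 0`. -/
theorem E_eq_zero_of_order (P : W.Point) (n : ℕ) (hn2 : 2 ≤ n)
    (hn : ∀ k : ℕ, 0 < k → k < n → k • P ≠ 0) (h0 : n • P = 0) : E P n = 0 := by
  rcases Nat.lt_or_ge n 3 with h3 | h3
  · have : n = 2 := by omega
    subst this
    rw [Nat.cast_ofNat, E_two]
    apply yc_eq_zero_of_add_self
    rwa [two_smul] at h0
  · obtain ⟨hS, -⟩ := S_and_ne_zero P n hn (n - 1) (by omega) (by omega)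
    obtain ⟨-, hE⟩ := S_and_ne_zero P n hn (n - 2) (by omega) (by omega)
    unfold S at hS
    rw [Nat.cast_sub (by omega), Nat.cast_one, sub_add_cancel] at hS
    have e1 : ((n : ℤ) - 1) • P = -P := by
      rw [sub_smul, one_smul, natCast_zsmul, h0, zero_sub]
    rw [e1, xc_neg, sub_self, zero_mul] at hS
    rw [Nat.cast_sub (by omega)] at hE
    rw [show (n : ℤ) - 1 - 1 = n - (2 : ℕ) by push_cast; ring] at hS
    exact (mul_eq_zero.mp hS).resolve_right hE

/-- **DP1**: a nonzero `p`-torsion point (`p` an odd prime) has `preΨ_p(x(P)) = 0`. -/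
theorem preΨ_eq_zero_of_tors {p : ℕ} (hp : p.Prime) (hp2 : p ≠ 2) (P : W.Point) (hP0 : P ≠ 0)
    (hP : p • P = 0) : (W.preΨ p).eval (xc P) = 0 := by
  have hn : ∀ k : ℕ, 0 < k → k < p → k • P ≠ 0 := by
    intro k hk0 hkp h
    apply hP0
    have hc : Nat.Coprime k p := (Nat.coprime_of_lt_prime hk0.ne' hkp hp).symm
    have h1 : ((Nat.gcd k p : ℕ) : ℤ) • P = 0 := by
      rw [Nat.gcd_eq_gcd_ab, add_smul, mul_comm, mul_smul, natCast_zsmul, h, smul_zero,
        mul_comm, mul_smul, natCast_zsmul, hP, smul_zero, add_zero]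
    rw [hc.gcd_eq_one] at h1
    simpa using h1
  have h := E_eq_zero_of_order P p hp.two_le hn hP
  rw [E_eq P hP0, if_neg (by
    rw [Int.even_coe_nat, Nat.not_even_iff_odd]; exact hp.odd_of_ne_two hp2), mul_one] at h
  exact h

end Fermat.Agent.DivPoly
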